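import Mathlib

/-!
# Local norm index: abstract core

`L` is a field with a discrete valuation `w : Valuation L ℤᵐ⁰`, `σ` an automorphism of prime
order `p` preserving `w`.  We prove that some `σ`-fixed element of `L` is not congruent to a
norm `N y = ∏_{j<p} σ^j y` modulo `1 + 𝔓^n` for a suitable `n` (local first inequality, in
congruence form).
-/

set_option autoImplicit false

set_option linter.unusedSectionVars false

namespace Fermat.Agent.CFT.LocNorm

open WithZero Finset

/-! ### Orders -/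

section Basic

variable {L : Type*} [Field L] (w : Valuation L ℤᵐ⁰)

/-- `Ge w i x`: the `w`-order of `x` is at least `i` (`x = 0` allowed). -/
def Ge (i : ℤ) (x : L) : Prop := w x ≤ exp (-i)

/-- `Ex w i x`: the `w`-order of `x` is exactly `i`. -/
def Ex (i : ℤ) (x : L) : Prop := w x = exp (-i)

variable {w}

theorem Ge.zero (i : ℤ) : Ge w i 0 := by
  unfold Ge
  rw [map_zero]
  exact zero_le

theorem Ge.mono {i j : ℤ} {x : L} (h : Ge w j x) (hij : i ≤ j) : Ge w i x :=
  le_trans h (exp_le_exp.mpr (by omega))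

theorem Ge.add {i : ℤ} {x y : L} (hx : Ge w i x) (hy : Ge w i y) : Ge w i (x + y) :=
  (w.map_add x y).trans (max_le hx hy)

theorem Ge.neg {i : ℤ} {x : L} (hx : Ge w i x) : Ge w i (-x) := by
  unfold Ge
  rw [Valuation.map_neg]
  exact hx

theorem Ge.sub {i : ℤ} {x y : L} (hx : Ge w i x) (hy : Ge w i y) : Ge w i (x - y) := by
  rw [sub_eq_add_neg]
  exact hx.add hy.neg

theorem Ge.mul {i j : ℤ} {x y : L} (hx : Ge w i x) (hy : Ge w j y) : Ge w (i + j) (x * y) := by
  unfold Ge
  rw [map_mul, neg_add, exp_add]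
  exact mul_le_mul' hx hy

theorem Ge.sum {ι : Type*} {i : ℤ} (s : Finset ι) (f : ι → L) (h : ∀ k ∈ s, Ge w i (f k)) :
    Ge w i (∑ k ∈ s, f k) := by
  classical
  induction s using Finset.induction_on with
  | empty => simpa using Ge.zero i
  | insert a s ha ih =>
    rw [sum_insert ha]
    exact (h a (mem_insert_self a s)).add (ih fun k hk => h k (mem_insert_of_mem hk))

theorem Ge.one : Ge w 0 (1 : L) := by
  unfold Ge
  simp

theorem Ge.pow {i : ℤ} {x : L} (hx : Ge w i x) (n : ℕ) : Ge w (n * i) (x ^ n) := by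
  induction n with
  | zero => simpa using Ge.one
  | succ n ih =>
    rw [pow_succ]
    have := ih.mul hx
    convert this using 1
    push_cast
    ring

theorem Ge.natCast (n : ℕ) : Ge w 0 (n : L) := by
  induction n with
  | zero => simpa using Ge.zero (w := w) 0
  | succ n ih =>
    push_cast
    exact ih.add Ge.one

theorem Ge.intCast (n : ℤ) : Ge w 0 (n : L) := by
  cases n with
  | ofNat n => simpa using Ge.natCast (w := w) n
  | negSucc n =>
    rw [Int.cast_negSucc]
    exact (Ge.natCast (n + 1)).neg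

theorem Ge.prod {ι : Type*} (s : Finset ι) (f : ι → L) (h : ∀ k ∈ s, Ge w 0 (f k)) :
    Ge w 0 (∏ k ∈ s, f k) := by
  classical
  induction s using Finset.induction_on with
  | empty => simpa using Ge.one
  | insert a s ha ih =>
    rw [prod_insert ha]
    have := (h a (mem_insert_self a s)).mul (ih fun k hk => h k (mem_insert_of_mem hk))
    simpa using this

theorem Ex.ge {i : ℤ} {x : L} (h : Ex w i x) : Ge w i x := le_of_eq h

theorem Ex.ne_zero {i : ℤ} {x : L} (h : Ex w i x) : x ≠ 0 := by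
  rintro rfl
  unfold Ex at h
  rw [map_zero] at h
  exact exp_ne_zero h.symm

theorem exists_ex {x : L} (hx : x ≠ 0) : ∃ i : ℤ, Ex w i x := by
  refine ⟨-log (w x), ?_⟩
  unfold Ex
  rw [neg_neg, exp_log ((Valuation.ne_zero_iff _).mpr hx)]

theorem Ex.unique {i j : ℤ} {x : L} (h : Ex w i x) (h' : Ex w j x) : i = j := by
  unfold Ex at h h'
  rw [h] at h'
  have := exp_inj.mp h'
  omega

theorem Ex.le_of_ge {i j : ℤ} {x : L} (h : Ex w i x) (h' : Ge w j x) : j ≤ i := by
  unfold Ex at h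
  unfold Ge at h'
  rw [h, exp_le_exp] at h'
  omega

theorem Ex.mul {i j : ℤ} {x y : L} (hx : Ex w i x) (hy : Ex w j y) : Ex w (i + j) (x * y) := by
  unfold Ex at *
  rw [map_mul, hx, hy, neg_add, exp_add]

theorem Ex.inv {i : ℤ} {x : L} (hx : Ex w i x) : Ex w (-i) x⁻¹ := by
  unfold Ex at *
  rw [map_inv₀, hx, neg_neg, exp_neg, inv_inv]

theorem Ex.div {i j : ℤ} {x y : L} (hx : Ex w i x) (hy : Ex w j y) : Ex w (i - j) (x / y) := by
  rw [div_eq_mul_inv, sub_eq_add_neg]
  exact hx.mul hy.inv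

theorem Ex.pow {i : ℤ} {x : L} (hx : Ex w i x) (n : ℕ) : Ex w (n * i) (x ^ n) := by
  induction n with
  | zero =>
    unfold Ex
    simp
  | succ n ih =>
    rw [pow_succ]
    have := ih.mul hx
    convert this using 1
    push_cast
    ring

theorem Ex.neg {i : ℤ} {x : L} (hx : Ex w i x) : Ex w i (-x) := by
  unfold Ex at *
  rw [Valuation.map_neg]
  exact hx

theorem ex_one : Ex w 0 (1 : L) := by
  unfold Ex
  simp

/-- Ultrametric: a term of strictly larger order does not change the exact order. -/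
theorem Ex.add_ge {i j : ℤ} {x y : L} (hx : Ex w i x) (hy : Ge w j y) (hij : i < j) :
    Ex w i (x + y) := by
  unfold Ex at *
  unfold Ge at hy
  rw [Valuation.map_add_eq_of_lt_left, hx]
  rw [hx]
  exact lt_of_le_of_lt hy (exp_lt_exp.mpr (by omega))

theorem Ge.mul_ex_inv {i j : ℤ} {x y : L} (hx : Ge w i x) (hy : Ex w j y) :
    Ge w (i - j) (x / y) := by
  rw [div_eq_mul_inv, sub_eq_add_neg]
  exact hx.mul hy.inv.ge

theorem Ge.of_mul_ex {i j : ℤ} {x y : L} (h : Ge w (i + j) (x * y)) (hy : Ex w j y) :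
    Ge w i x := by
  have h1 := h.mul_ex_inv hy
  rwa [mul_div_assoc, div_self hy.ne_zero, mul_one, add_sub_cancel_right] at h1

/-- An element congruent to `1` modulo the maximal ideal is a unit. -/
theorem ex_zero_of_ge_sub_one {x : L} (h : Ge w 1 (x - 1)) : Ex w 0 x := by
  have h1 : Ex w 0 (1 + (x - 1)) := ex_one.add_ge h (by norm_num)
  rwa [add_sub_cancel] at h1

/-- A finite sum whose nonzero terms have pairwise distinct valuations has valuation the
supremum of the valuations of its terms. -/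
theorem map_sum_eq_sup {ι : Type*} (s : Finset ι) (f : ι → L)
    (hd : ∀ i ∈ s, ∀ j ∈ s, i ≠ j → f i ≠ 0 → w (f i) ≠ w (f j)) :
    w (∑ i ∈ s, f i) = s.sup (fun i => w (f i)) := by
  classical
  induction s using Finset.induction_on with
  | empty => simp
  | insert a s ha ih =>
    rw [sum_insert ha, sup_insert]
    have ih' := ih (fun i hi j hj => hd i (mem_insert_of_mem hi) j (mem_insert_of_mem hj))
    by_cases hfa : f a = 0
    · rw [hfa, zero_add, map_zero, ih']
      exact (max_eq_right zero_le).symm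
    · have hne : w (f a) ≠ w (∑ i ∈ s, f i) := by
        rw [ih']
        intro heq
        rcases s.eq_empty_or_nonempty with rfl | hs
        · rw [sup_empty] at heq
          exact hfa ((Valuation.zero_iff _).mp heq)
        · obtain ⟨j, hj, hjs⟩ := exists_mem_eq_sup s hs (fun i => w (f i))
          rw [hjs] at heq
          exact hd a (mem_insert_self a s) j (mem_insert_of_mem hj)
            (by rintro rfl; exact ha hj) hfa heq
      rw [Valuation.map_add_of_distinct_val _ hne, ih']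

end Basic

/-! ### An automorphism of prime order -/

section Aut

variable {K₀ L : Type*} [Field K₀] [Field L] [Algebra K₀ L]
  {w : Valuation L ℤᵐ⁰} {σ : L ≃ₐ[K₀] L} {p : ℕ}

/-- The norm `∏_{j<p} σ^j y`. -/
def nm (σ : L ≃ₐ[K₀] L) (p : ℕ) (y : L) : L := ∏ j ∈ range p, (σ ^ j) y

/-- The trace `∑_{j<p} σ^j y`. -/
def tr (σ : L ≃ₐ[K₀] L) (p : ℕ) (y : L) : L := ∑ j ∈ range p, (σ ^ j) y

theorem nm_one : nm σ p 1 = 1 := by
  simp [nm]

theorem nm_mul (x y : L) : nm σ p (x * y) = nm σ p x * nm σ p y := by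
  simp [nm, prod_mul_distrib]

theorem nm_inv (x : L) : nm σ p x⁻¹ = (nm σ p x)⁻¹ := by
  simp [nm, prod_inv_distrib]

theorem nm_div (x y : L) : nm σ p (x / y) = nm σ p x / nm σ p y := by
  rw [div_eq_mul_inv, nm_mul, nm_inv, div_eq_mul_inv]

theorem nm_ne_zero {y : L} (hy : y ≠ 0) : nm σ p y ≠ 0 := by
  unfold nm
  exact prod_ne_zero_iff.mpr fun j _ => (map_ne_zero_iff _ (σ ^ j).injective).mpr hy

theorem pow_apply_of_fixed {c : L} (hc : σ c = c) (j : ℕ) : (σ ^ j) c = c := by
  induction j with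
  | zero => simp
  | succ j ih => rw [pow_succ, AlgEquiv.mul_apply, hc, ih]

theorem nm_of_fixed {c : L} (hc : σ c = c) : nm σ p c = c ^ p := by
  unfold nm
  rw [prod_congr rfl fun j _ => pow_apply_of_fixed hc j, prod_const, card_range]

theorem tr_add (x y : L) : tr σ p (x + y) = tr σ p x + tr σ p y := by
  simp [tr, sum_add_distrib]

theorem sigma_nm (hp : 0 < p) (hσp : σ ^ p = 1) (y : L) : σ (nm σ p y) = nm σ p y := by
  obtain ⟨m, rfl⟩ := Nat.exists_eq_succ_of_ne_zero hp.ne'
  unfold nm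
  rw [map_prod]
  have h1 : ∀ j, σ ((σ ^ j) y) = (σ ^ (j + 1)) y := fun j => by
    rw [pow_succ', AlgEquiv.mul_apply]
  rw [prod_congr rfl fun j _ => h1 j, prod_range_succ (fun j => (σ ^ (j + 1)) y),
    prod_range_succ' (fun j => (σ ^ j) y), hσp, pow_zero]

theorem sigma_tr (hp : 0 < p) (hσp : σ ^ p = 1) (y : L) : σ (tr σ p y) = tr σ p y := by
  obtain ⟨m, rfl⟩ := Nat.exists_eq_succ_of_ne_zero hp.ne'
  unfold tr
  rw [map_sum]
  have h1 : ∀ j, σ ((σ ^ j) y) = (σ ^ (j + 1)) y := fun j => by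
    rw [pow_succ', AlgEquiv.mul_apply]
  rw [sum_congr rfl fun j _ => h1 j, sum_range_succ (fun j => (σ ^ (j + 1)) y),
    sum_range_succ' (fun j => (σ ^ j) y), hσp, pow_zero]

section Inv

variable (hσw : ∀ x, w (σ x) = w x)
include hσw

theorem map_pow_apply (j : ℕ) (x : L) : w ((σ ^ j) x) = w x := by
  induction j with
  | zero => simp
  | succ j ih => rw [pow_succ', AlgEquiv.mul_apply, hσw, ih]

theorem Ge.sigma {i : ℤ} {x : L} (h : Ge w i x) : Ge w i (σ x) := by
  unfold Ge at *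
  rwa [hσw]

theorem Ge.sigma_pow {i : ℤ} {x : L} (h : Ge w i x) (j : ℕ) : Ge w i ((σ ^ j) x) := by
  unfold Ge at *
  rwa [map_pow_apply hσw]

theorem Ex.sigma {i : ℤ} {x : L} (h : Ex w i x) : Ex w i (σ x) := by
  unfold Ex at *
  rwa [hσw]

theorem map_nm (y : L) : w (nm σ p y) = w y ^ p := by
  unfold nm
  rw [map_prod, prod_congr rfl fun j _ => map_pow_apply hσw j y, prod_const, card_range]

theorem Ex.nm {i : ℤ} {y : L} (h : Ex w i y) : Ex w (p * i) (nm σ p y) := by
  unfold Ex at *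
  rw [map_nm hσw, h, ← exp_nsmul]
  congr 1
  simp

theorem Ge.nm {i : ℤ} {y : L} (h : Ge w i y) : Ge w (p * i) (nm σ p y) := by
  unfold Ge at *
  rw [map_nm hσw]
  calc w y ^ p ≤ exp (-i) ^ p := pow_le_pow_left' h p
    _ = exp (-(p * i)) := by
      rw [← exp_nsmul]
      congr 1
      simp

theorem Ge.tr {i : ℤ} {y : L} (h : Ge w i y) : Ge w i (tr σ p y) :=
  Ge.sum _ _ fun j _ => h.sigma_pow hσw j

end Inv

/-! ### The totally ramified case: the power basis of a uniformizer -/

section Ram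

variable (hp : p.Prime) (hσw : ∀ x, w (σ x) = w x)
  (hram : ∀ x : L, σ x = x → x ≠ 0 → ∃ m : ℤ, Ex w (p * m) x)
  {π : L} (hπ : Ex w 1 π)
include hp hram hπ

omit hp in
theorem ex_coeff_mul_pow {c : L} (hc : σ c = c) (hc0 : c ≠ 0) (j : ℕ) :
    ∃ m : ℤ, Ex w (p * m + j) (c * π ^ j) := by
  obtain ⟨m, hm⟩ := hram c hc hc0
  refine ⟨m, ?_⟩
  have := hm.mul (hπ.pow j)
  simpa using this

/-- The valuation of `∑_{j<p} c_j π^j` with `σ`-fixed coefficients is the maximum of the
valuations of the terms. -/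
theorem map_sum_fin (c : Fin p → L) (hc : ∀ j, σ (c j) = c j) :
    w (∑ j : Fin p, c j * π ^ (j : ℕ)) = univ.sup (fun j : Fin p => w (c j * π ^ (j : ℕ))) := by
  apply map_sum_eq_sup
  intro i _ j _ hij hi heq
  have hci : c i ≠ 0 := left_ne_zero_of_mul hi
  have hj : c j * π ^ (j : ℕ) ≠ 0 := by
    rw [← Valuation.ne_zero_iff w, ← heq, Valuation.ne_zero_iff]
    exact hi
  have hcj : c j ≠ 0 := left_ne_zero_of_mul hj
  obtain ⟨m, hm⟩ := ex_coeff_mul_pow hram hπ (hc i) hci i
  obtain ⟨m', hm'⟩ := ex_coeff_mul_pow hram hπ (hc j) hcj j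
  have heq' : Ex w (p * m' + j) (c i * π ^ (i : ℕ)) := by
    unfold Ex at *
    rw [heq, hm']
  have h1 := hm.unique heq'
  have h2 : ((i : ℕ) : ℤ) - (j : ℕ) = 0 := by
    apply Int.eq_zero_of_abs_lt_dvd (m := (p : ℤ))
    · exact ⟨m' - m, by linarith⟩
    · have hi' := i.2
      have hj' := j.2
      rw [abs_lt]
      constructor <;> omega
  exact hij (Fin.ext (by omega))

theorem ge_sum_fin_iff (c : Fin p → L) (hc : ∀ j, σ (c j) = c j) (i : ℤ) :
    Ge w i (∑ j : Fin p, c j * π ^ (j : ℕ)) ↔ ∀ j : Fin p, Ge w i (c j * π ^ (j : ℕ)) := by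
  unfold Ge
  rw [map_sum_fin hp hram hπ c hc, Finset.sup_le_iff]
  simp

theorem linearIndependent_pow :
    LinearIndependent K₀ (fun j : Fin p => π ^ (j : ℕ)) := by
  rw [Fintype.linearIndependent_iff]
  intro g hg j
  have h1 : ∑ j : Fin p, algebraMap K₀ L (g j) * π ^ (j : ℕ) = 0 := by
    rw [← hg]
    exact sum_congr rfl fun j _ => (Algebra.smul_def _ _).symm
  have h2 := map_sum_fin hp hram hπ (fun j => algebraMap K₀ L (g j)) (fun j => σ.commutes _)
  rw [h1, map_zero] at h2
  have h3 : w (algebraMap K₀ L (g j) * π ^ (j : ℕ)) ≤ 0 := by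
    rw [h2]
    exact Finset.le_sup (f := fun j : Fin p => w (algebraMap K₀ L (g j) * π ^ (j : ℕ)))
      (mem_univ j)
  have h4 : algebraMap K₀ L (g j) * π ^ (j : ℕ) = 0 :=
    (Valuation.zero_iff _).mp (le_antisymm h3 zero_le)
  have h5 : algebraMap K₀ L (g j) = 0 := by
    rcases mul_eq_zero.mp h4 with h | h
    · exact h
    · exact absurd h (pow_ne_zero _ hπ.ne_zero)
  exact (map_eq_zero _).mp h5

variable (hdeg : Module.finrank K₀ L = p)
include hdeg

/-- Every element is a `K₀`-combination of `1, π, …, π^(p-1)`. -/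
theorem exists_coeff (z : L) :
    ∃ c : Fin p → K₀, z = ∑ j : Fin p, algebraMap K₀ L (c j) * π ^ (j : ℕ) := by
  have hli := linearIndependent_pow (K₀ := K₀) hp hram hπ
  have : Nonempty (Fin p) := ⟨⟨0, hp.pos⟩⟩
  have hcard : Fintype.card (Fin p) = Module.finrank K₀ L := by simp [hdeg]
  have hb : ⇑(basisOfLinearIndependentOfCardEqFinrank hli hcard) = fun j : Fin p => π ^ (j : ℕ) :=
    coe_basisOfLinearIndependentOfCardEqFinrank hli hcard
  refine ⟨fun j => (basisOfLinearIndependentOfCardEqFinrank hli hcard).repr z j, ?_⟩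
  conv_lhs => rw [← (basisOfLinearIndependentOfCardEqFinrank hli hcard).sum_repr z]
  refine sum_congr rfl fun j _ => ?_
  rw [Algebra.smul_def, hb]

include hσw

/-- `σ` moves an element of order `≥ i` by an element of order `≥ i + t`, where
`t ≤ ord (σπ/π - 1)`. -/
theorem sigma_sub_ge {t : ℤ} (ht : Ge w t (σ π / π - 1)) {i : ℤ} {z : L} (hz : Ge w i z) :
    Ge w (i + t) (σ z - z) := by
  obtain ⟨c, rfl⟩ := exists_coeff hp hram hπ hdeg z
  have hc : ∀ j, σ (algebraMap K₀ L (c j)) = algebraMap K₀ L (c j) := fun j => σ.commutes _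
  have hterm := (ge_sum_fin_iff hp hram hπ (fun j => algebraMap K₀ L (c j)) hc i).mp hz
  have hπ0 : π ≠ 0 := hπ.ne_zero
  set ζ := σ π / π with hζ
  have hζ0 : Ge w 0 ζ := by
    have := (hπ.sigma hσw).div hπ
    simpa using this.ge
  have hσπ : σ π = π * ζ := by
    rw [hζ]
    field_simp
  have key : σ (∑ j : Fin p, algebraMap K₀ L (c j) * π ^ (j : ℕ)) -
      ∑ j : Fin p, algebraMap K₀ L (c j) * π ^ (j : ℕ) =
      ∑ j : Fin p, algebraMap K₀ L (c j) * π ^ (j : ℕ) * (ζ ^ (j : ℕ) - 1) := by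
    rw [map_sum, ← sum_sub_distrib]
    refine sum_congr rfl fun j _ => ?_
    rw [map_mul, map_pow, hc, hσπ]
    ring
  rw [key]
  refine Ge.sum _ _ fun j _ => (hterm j).mul ?_
  have h1 : ζ ^ (j : ℕ) - 1 = (∑ m ∈ range (j : ℕ), ζ ^ m) * (ζ - 1) := (geom_sum_mul ζ j).symm
  rw [h1]
  have h2 : Ge w 0 (∑ m ∈ range (j : ℕ), ζ ^ m) :=
    Ge.sum _ _ fun m _ => by simpa using hζ0.pow m
  simpa using h2.mul ht

omit hσw in
/-- Every integral element is congruent to an element of `K₀` modulo the maximal ideal. -/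
theorem exists_fixed_congr {u : L} (hu : Ge w 0 u) :
    ∃ c : K₀, Ge w 1 (u - algebraMap K₀ L c) := by
  obtain ⟨c, rfl⟩ := exists_coeff hp hram hπ hdeg u
  have hc : ∀ j, σ (algebraMap K₀ L (c j)) = algebraMap K₀ L (c j) := fun j => σ.commutes _
  have hterm := (ge_sum_fin_iff hp hram hπ (fun j => algebraMap K₀ L (c j)) hc 0).mp hu
  have : NeZero p := ⟨hp.ne_zero⟩
  refine ⟨c 0, ?_⟩
  have h1 : ∑ j : Fin p, algebraMap K₀ L (c j) * π ^ (j : ℕ) - algebraMap K₀ L (c 0) =
      ∑ j ∈ univ.erase (0 : Fin p), algebraMap K₀ L (c j) * π ^ (j : ℕ) := by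
    rw [sum_erase_eq_sub (mem_univ _)]
    simp
  rw [h1]
  refine Ge.sum _ _ fun j hj => ?_
  have hj0 : j ≠ 0 := (mem_erase.mp hj).1
  by_cases hx : algebraMap K₀ L (c j) * π ^ (j : ℕ) = 0
  · rw [hx]
    exact Ge.zero 1
  · obtain ⟨m, hm⟩ := ex_coeff_mul_pow hram hπ (hc j) (left_ne_zero_of_mul hx) j
    have h2 := hm.le_of_ge (hterm j)
    refine hm.ge.mono ?_
    have hjp := j.2
    have hjpos : 0 < (j : ℕ) := Nat.pos_of_ne_zero fun h => hj0 (Fin.ext h)
    by_contra hlt
    have h3 : (p : ℤ) * m + (j : ℕ) = 0 := by omega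
    have h4 : ((j : ℕ) : ℤ) = 0 := by
      apply Int.eq_zero_of_abs_lt_dvd (m := (p : ℤ))
      · exact ⟨-m, by linarith⟩
      · rw [abs_lt]
        constructor <;> omega
    omega

end Ram

/-! ### The difference operator `D = σ - 1` -/

section Diff

/-- `σ` as a `ℤ`-linear endomorphism. -/
def sEnd (σ : L ≃ₐ[K₀] L) : Module.End ℤ L := (σ : L →+ L).toIntLinearMap

/-- The difference operator `σ - 1`. -/
def dEnd (σ : L ≃ₐ[K₀] L) : Module.End ℤ L := sEnd σ - 1

theorem sEnd_apply (z : L) : sEnd σ z = σ z := rfl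

theorem dEnd_apply (z : L) : dEnd σ z = σ z - z := rfl

theorem sEnd_pow_apply (j : ℕ) (z : L) : (sEnd σ ^ j) z = (σ ^ j) z := by
  induction j generalizing z with
  | zero => simp
  | succ j ih => rw [pow_succ, Module.End.mul_apply, ih, sEnd_apply, pow_succ, AlgEquiv.mul_apply]

theorem sEnd_eq : sEnd σ = dEnd σ + 1 := by
  unfold dEnd
  abel

/-- Binomial expansion of `σ^n` in terms of `D`. -/
theorem pow_apply_eq_sum (n : ℕ) (z : L) :
    (σ ^ n) z = ∑ m ∈ range (n + 1), (n.choose m : L) * (dEnd σ ^ m) z := by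
  rw [← sEnd_pow_apply, sEnd_eq, (Commute.one_right (dEnd σ)).add_pow, LinearMap.sum_apply]
  refine sum_congr rfl fun m _ => ?_
  rw [one_pow, mul_one, Module.End.mul_apply, Module.End.natCast_apply, map_nsmul, nsmul_eq_mul]

/-- `∑_{j<n} (D+1)^j = ∑_{k<n} C(n,k+1) D^k` in any ring. -/
theorem geom_sum_add_one {R : Type*} [Ring R] (d : R) (n : ℕ) :
    ∑ j ∈ range n, (d + 1) ^ j = ∑ k ∈ range n, (n.choose (k + 1) : R) * d ^ k := by
  induction n with
  | zero => simp
  | succ n ih =>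
    rw [sum_range_succ, ih, (Commute.one_right d).add_pow, sum_range_succ (fun k => _ * d ^ k) n,
      sum_range_succ (fun m => d ^ m * 1 ^ (n - m) * (n.choose m : R)) n]
    have h1 : ∀ k ∈ range n, ((n + 1).choose (k + 1) : R) * d ^ k =
        (n.choose (k + 1) : R) * d ^ k + d ^ k * 1 ^ (n - k) * (n.choose k : R) := by
      intro k _
      rw [Nat.choose_succ_succ', Nat.cast_add, one_pow, mul_one, add_mul, add_comm,
        (Nat.cast_commute (n.choose k) (d ^ k)).eq]
    rw [sum_congr rfl h1, sum_add_distrib]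
    simp only [Nat.choose_self, Nat.cast_one, one_mul, one_pow, mul_one, Nat.sub_self, pow_zero]
    abel

/-- The trace in terms of `D`. -/
theorem tr_eq_sum (n : ℕ) (z : L) :
    tr σ n z = ∑ k ∈ range n, (n.choose (k + 1) : L) * (dEnd σ ^ k) z := by
  have h := geom_sum_add_one (dEnd σ) n
  rw [← sEnd_eq] at h
  have h2 := congrArg (fun f : Module.End ℤ L => f z) h
  simp only [LinearMap.sum_apply] at h2
  unfold tr
  rw [← sum_congr rfl fun j _ => sEnd_pow_apply (σ := σ) j z, h2]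
  refine sum_congr rfl fun k _ => ?_
  rw [Module.End.mul_apply, Module.End.natCast_apply, nsmul_eq_mul]

variable (hσw : ∀ x, w (σ x) = w x)
include hσw

/-- If `D` raises orders by `t`, then `D^k` raises orders by `k t`. -/
theorem dEnd_pow_ge {t : ℤ} (hD : ∀ (i : ℤ) (z : L), Ge w i z → Ge w (i + t) (σ z - z))
    (k : ℕ) {i : ℤ} {z : L} (hz : Ge w i z) : Ge w (i + k * t) ((dEnd σ ^ k) z) := by
  induction k with
  | zero => simpa using hz
  | succ k ih =>
    rw [pow_succ', Module.End.mul_apply, dEnd_apply]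
    have := hD _ _ ih
    convert this using 1
    push_cast
    ring

/-- In the wild case (`t ≥ 1`) the prime `p` has order at least `(p-1) t`. -/
theorem ge_prime (hp : p.Prime) (hσp : σ ^ p = 1) {π : L} (hπ : Ex w 1 π) {t : ℤ} (ht1 : 1 ≤ t)
    (hta : Ex w t (σ π / π - 1))
    (hD : ∀ (i : ℤ) (z : L), Ge w i z → Ge w (i + t) (σ z - z)) :
    Ge w ((p - 1) * t) (p : L) := by
  by_cases hp0 : (p : L) = 0
  · rw [hp0]
    exact Ge.zero _
  obtain ⟨e, he⟩ := exists_ex (w := w) hp0
  refine he.ge.mono ?_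
  by_contra hlt
  push Not at hlt
  obtain ⟨q, rfl⟩ : ∃ q, p = q + 2 := ⟨p - 2, by have := hp.two_le; omega⟩
  have hπ0 : π ≠ 0 := hπ.ne_zero
  -- binomial expansion of `σ^p π = π`
  have h1 := pow_apply_eq_sum (σ := σ) (q + 2) π
  rw [hσp, AlgEquiv.one_apply, sum_range_succ, sum_range_succ', sum_range_succ'] at h1
  simp only [Nat.choose_zero_right, Nat.cast_one, pow_zero, Module.End.one_apply, one_mul,
    Nat.choose_one_right, Nat.choose_self, zero_add, pow_one, dEnd_apply] at h1
  -- the term `p * (σ π - π)` has exact order `e + 1 + t`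
  have hd1 : Ex w (1 + t) (σ π - π) := by
    have h2 : σ π - π = π * (σ π / π - 1) := by field_simp
    rw [h2]
    exact hπ.mul hta
  have hmain : Ex w (e + (1 + t)) (((q + 2 : ℕ) : L) * (σ π - π)) := he.mul hd1
  -- the other terms have larger order
  have hA : Ge w (e + (1 + t) + 1)
      (∑ m ∈ range q, ((q + 2).choose (m + 1 + 1) : L) * (dEnd σ ^ (m + 1 + 1)) π) := by
    refine Ge.sum _ _ fun m hm => ?_
    have hm' := mem_range.mp hm
    obtain ⟨c, hc⟩ := hp.dvd_choose_self (k := m + 1 + 1) (by omega) (by omega)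
    rw [hc, Nat.cast_mul, mul_assoc]
    have h3 : Ge w (1 + ((m + 1 + 1 : ℕ) : ℤ) * t) ((dEnd σ ^ (m + 1 + 1)) π) :=
      dEnd_pow_ge hσw hD (m + 1 + 1) hπ.ge
    have h4 := he.ge.mul ((Ge.natCast (w := w) c).mul h3)
    refine h4.mono ?_
    push_cast
    nlinarith
  have hB : Ge w (e + (1 + t) + 1) ((dEnd σ ^ (q + 2)) π) := by
    have h3 : Ge w (1 + ((q + 2 : ℕ) : ℤ) * t) ((dEnd σ ^ (q + 2)) π) :=
      dEnd_pow_ge hσw hD (q + 2) hπ.ge
    refine h3.mono ?_
    push_cast at hlt ⊢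
    nlinarith
  have h5 : ((q + 2 : ℕ) : L) * (σ π - π) =
      -(∑ m ∈ range q, ((q + 2).choose (m + 1 + 1) : L) * (dEnd σ ^ (m + 1 + 1)) π +
        (dEnd σ ^ (q + 2)) π) := by
    linear_combination (-1 : L) * h1
  rw [h5] at hmain
  have := hmain.le_of_ge (hA.add hB).neg
  omega

/-- The trace raises orders by `(p-1) t`. -/
theorem tr_ge (hp : p.Prime) {t : ℤ} (ht0 : 0 ≤ t)
    (hD : ∀ (i : ℤ) (z : L), Ge w i z → Ge w (i + t) (σ z - z))
    (hpt : Ge w ((p - 1) * t) (p : L)) {i : ℤ} {z : L} (hz : Ge w i z) :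
    Ge w (i + (p - 1) * t) (tr σ p z) := by
  obtain ⟨q, rfl⟩ : ∃ q, p = q + 1 := ⟨p - 1, by have := hp.two_le; omega⟩
  rw [tr_eq_sum, sum_range_succ]
  refine Ge.add (Ge.sum _ _ fun k hk => ?_) ?_
  · have hk' := mem_range.mp hk
    obtain ⟨c, hc⟩ := hp.dvd_choose_self (k := k + 1) (by omega) (by omega)
    rw [hc, Nat.cast_mul, mul_assoc]
    have h3 : Ge w (i + (k : ℤ) * t) ((dEnd σ ^ k) z) := dEnd_pow_ge hσw hD k hz
    have h4 := hpt.mul ((Ge.natCast (w := w) c).mul h3)
    refine h4.mono ?_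
    push_cast
    nlinarith
  · rw [Nat.choose_self, Nat.cast_one, one_mul]
    have h3 : Ge w (i + (q : ℤ) * t) ((dEnd σ ^ q) z) := dEnd_pow_ge hσw hD q hz
    refine h3.mono ?_
    push_cast
    nlinarith

end Diff

end Aut

/-! ### Elementary symmetric functions and Newton's identities -/

section Newton

variable {L : Type*} [Field L] {w : Valuation L ℤᵐ⁰} {p : ℕ}

/-- The `k`-th elementary symmetric function of the family `c`. -/
def es (c : Fin p → L) (k : ℕ) : L := ∑ t ∈ powersetCard k univ, ∏ i ∈ t, c i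

theorem es_zero (c : Fin p → L) : es c 0 = 1 := by
  simp [es]

theorem es_card (c : Fin p → L) : es c p = ∏ i, c i := by
  unfold es
  have hc : (univ : Finset (Fin p)).card = p := by simp
  have h := powersetCard_self (univ : Finset (Fin p))
  rw [hc] at h
  rw [h, sum_singleton]

theorem prod_one_add_eq (c : Fin p → L) : ∏ i, (1 + c i) = ∑ k ∈ range (p + 1), es c k := by
  rw [prod_one_add, sum_powerset, Finset.card_univ, Fintype.card_fin]
  rfl

theorem aeval_esymm (c : Fin p → L) (k : ℕ) :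
    MvPolynomial.aeval c (MvPolynomial.esymm (Fin p) ℤ k) = es c k := by
  simp [MvPolynomial.esymm, es, map_sum, map_prod]

/-- Newton's identities for the family `c`. -/
theorem newton (c : Fin p → L) (k : ℕ) :
    (k : L) * es c k = (-1) ^ (k + 1) *
      ∑ a ∈ antidiagonal k with a.1 < k, (-1) ^ a.1 * es c a.1 * ∑ i, c i ^ a.2 := by
  have h := congrArg (MvPolynomial.aeval c) (MvPolynomial.mul_esymm_eq_sum (Fin p) ℤ k)
  simp only [map_mul, map_natCast, map_pow, map_neg, map_one, map_sum, aeval_esymm,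
    MvPolynomial.psum, MvPolynomial.aeval_X] at h
  exact h

theorem ge_neg_one_pow (a : ℕ) : Ge w 0 ((-1 : L) ^ a) := by
  have := (Ge.one (w := w)).neg.pow a
  simpa using this

/-- If the power sums of `c` have order `≥ b i + T` and the integers `k < p` are units, then
the elementary symmetric functions `e_k`, `0 < k < p`, have order `≥ k i + T`. -/
theorem es_ge (c : Fin p → L) {i T : ℤ} (hT : 0 ≤ T)
    (hunit : ∀ k : ℕ, 0 < k → k < p → Ex w 0 (k : L))
    (hP : ∀ b : ℕ, 0 < b → Ge w (b * i + T) (∑ j, c j ^ b)) :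
    ∀ k : ℕ, 0 < k → k < p → Ge w (k * i + T) (es c k) := by
  intro k
  induction k using Nat.strong_induction_on with
  | _ k ih =>
    intro hk0 hkp
    have h1 : Ge w (k * i + T) ((k : L) * es c k) := by
      rw [newton]
      have h2 : Ge w (0 + (k * i + T)) ((-1 : L) ^ (k + 1) *
          ∑ a ∈ antidiagonal k with a.1 < k, (-1) ^ a.1 * es c a.1 * ∑ j, c j ^ a.2) := by
        refine (ge_neg_one_pow (k + 1)).mul (Ge.sum _ _ fun a ha => ?_)
        rw [mem_filter, Finset.HasAntidiagonal.mem_antidiagonal] at ha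
        obtain ⟨hab, halt⟩ := ha
        have hb : 0 < a.2 := by omega
        rcases Nat.eq_zero_or_pos a.1 with ha0 | ha0
        · rw [ha0, pow_zero, one_mul, es_zero, one_mul]
          have hbk : a.2 = k := by omega
          rw [hbk]
          exact hP k hk0
        · have h3 := ih a.1 halt ha0 (by omega)
          have h4 := ((ge_neg_one_pow (w := w) a.1).mul h3).mul (hP a.2 hb)
          refine h4.mono ?_
          have : (k : ℤ) = a.1 + a.2 := by exact_mod_cast hab.symm
          rw [this]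
          nlinarith
      simpa using h2
    have h5 : Ge w (k * i + T + 0) (es c k * (k : L)) := by
      rw [add_zero, mul_comm (es c k)]
      exact h1
    exact h5.of_mul_ex (hunit k hk0 hkp)

/-- Integers prime to `p` are units when `p` is not a unit. -/
theorem ex_natCast_of_lt (hp : p.Prime) (hp1 : Ge w 1 (p : L)) (k : ℕ) (hk0 : 0 < k)
    (hkp : k < p) : Ex w 0 (k : L) := by
  have hcop : IsCoprime (k : ℤ) (p : ℤ) := by
    rw [Int.isCoprime_iff_gcd_eq_one, Int.gcd_natCast_natCast]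
    exact Nat.coprime_comm.mp
      ((Nat.Prime.coprime_iff_not_dvd hp).mpr (Nat.not_dvd_of_pos_of_lt hk0 hkp))
  obtain ⟨a, b, hab⟩ := hcop
  have h1 : (a : L) * (k : L) = 1 + (-((b : L) * (p : L))) := by
    have := congrArg (Int.cast : ℤ → L) hab
    push_cast at this
    linear_combination this
  have h2 : Ex w 0 ((a : L) * (k : L)) := by
    rw [h1]
    have h6 : Ge w (0 + 1) ((b : L) * (p : L)) := (Ge.intCast b).mul hp1
    exact ex_one.add_ge h6.neg (by norm_num)
  have hk : (k : L) ≠ 0 := right_ne_zero_of_mul h2.ne_zero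
  have ha : (a : L) ≠ 0 := left_ne_zero_of_mul h2.ne_zero
  obtain ⟨j, hj⟩ := exists_ex (w := w) hk
  obtain ⟨j', hj'⟩ := exists_ex (w := w) ha
  have h3 := h2.unique (hj'.mul hj)
  have h4 := hj.le_of_ge (Ge.natCast k)
  have h5 := hj'.le_of_ge (Ge.intCast a)
  have hj0 : j = 0 := by omega
  rw [hj0] at hj
  exact hj

/-- `(1 + d)^p ≡ 1 + d^p` modulo the maximal ideal when `p` is not a unit. -/
theorem one_add_pow_sub_ge (hp : p.Prime) (hp1 : Ge w 1 (p : L)) {d : L} (hd : Ge w 0 d) :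
    Ge w 1 ((1 + d) ^ p - 1 - d ^ p) := by
  obtain ⟨q, rfl⟩ : ∃ q, p = q + 1 := ⟨p - 1, by have := hp.two_le; omega⟩
  rw [add_comm 1 d, add_pow, sum_range_succ, sum_range_succ']
  simp only [Nat.choose_self, Nat.cast_one, mul_one, Nat.sub_self, pow_zero, one_pow,
    Nat.choose_zero_right]
  have h1 : ∑ k ∈ range q, d ^ (k + 1) * ((q + 1).choose (k + 1) : L) + 1 + d ^ (q + 1) - 1 -
      d ^ (q + 1) = ∑ k ∈ range q, d ^ (k + 1) * ((q + 1).choose (k + 1) : L) := by ring
  rw [h1]
  refine Ge.sum _ _ fun k hk => ?_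
  have hk' := mem_range.mp hk
  obtain ⟨c, hc⟩ := hp.dvd_choose_self (k := k + 1) (by omega) (by omega)
  rw [hc, Nat.cast_mul]
  have h2 := ((hd.pow (k + 1)).mul (hp1.mul (Ge.natCast (w := w) c)))
  simpa using h2

end Newton

/-! ### Norm estimates -/

section NormEst

variable {K₀ L : Type*} [Field K₀] [Field L] [Algebra K₀ L]
  {w : Valuation L ℤᵐ⁰} {σ : L ≃ₐ[K₀] L} {p : ℕ}

theorem nm_sigma (y : L) : nm σ p (σ y) = σ (nm σ p y) := by
  unfold nm
  rw [map_prod]
  refine prod_congr rfl fun j _ => ?_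
  rw [← AlgEquiv.mul_apply, ← AlgEquiv.mul_apply, ← pow_succ, ← pow_succ']

variable (hσw : ∀ x, w (σ x) = w x)
include hσw

/-- Congruent integral elements have congruent norms. -/
theorem nm_congr {i : ℤ} {y y' : L} (hy : Ge w 0 y) (hy' : Ge w 0 y') (h : Ge w i (y - y')) :
    Ge w i (nm σ p y - nm σ p y') := by
  unfold nm
  induction p with
  | zero => simpa using Ge.zero i
  | succ n ih =>
    rw [prod_range_succ, prod_range_succ]
    have h1 : (∏ j ∈ range n, (σ ^ j) y) * (σ ^ n) y - (∏ j ∈ range n, (σ ^ j) y') * (σ ^ n) y' =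
        (∏ j ∈ range n, (σ ^ j) y) * ((σ ^ n) (y - y')) +
          (∏ j ∈ range n, (σ ^ j) y - ∏ j ∈ range n, (σ ^ j) y') * (σ ^ n) y' := by
      rw [map_sub]
      ring
    rw [h1]
    have h2 : Ge w 0 (∏ j ∈ range n, (σ ^ j) y) := Ge.prod _ _ fun j _ => hy.sigma_pow hσw j
    have h3 := h2.mul (h.sigma_pow hσw n)
    have h4 := ih.mul (hy'.sigma_pow hσw n)
    rw [zero_add] at h3
    rw [add_zero] at h4
    exact h3.add h4

/-- `N(1 + z) ≡ 1 + N z` modulo elements of order `≥ ord z + (p-1) t` (wild case). -/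
theorem nm_one_add_sub_ge (hp : p.Prime) {t : ℤ} (ht1 : 1 ≤ t)
    (hD : ∀ (i : ℤ) (z : L), Ge w i z → Ge w (i + t) (σ z - z))
    (hpt : Ge w ((p - 1) * t) (p : L)) {i : ℤ} (hi : 0 ≤ i) {z : L} (hz : Ge w i z) :
    Ge w (i + (p - 1) * t) (nm σ p (1 + z) - 1 - nm σ p z) := by
  have hp2 := hp.two_le
  have hp1 : Ge w 1 (p : L) := hpt.mono (by
    have : (1 : ℤ) ≤ (p : ℤ) - 1 := by
      have : (2 : ℤ) ≤ (p : ℤ) := by exact_mod_cast hp2
      omega
    nlinarith)
  set c : Fin p → L := fun j => (σ ^ (j : ℕ)) z with hc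
  have h1 : nm σ p (1 + z) = ∑ k ∈ range (p + 1), es c k := by
    rw [← prod_one_add_eq]
    unfold nm
    rw [← Fin.prod_univ_eq_prod_range (fun j => (σ ^ j) (1 + z)) p]
    refine prod_congr rfl fun j _ => ?_
    rw [map_add, map_one]
  have h2 : nm σ p z = es c p := by
    rw [es_card]
    unfold nm
    rw [← Fin.prod_univ_eq_prod_range (fun j => (σ ^ j) z) p]
  have hT : (0 : ℤ) ≤ ((p : ℤ) - 1) * t := by
    have : (2 : ℤ) ≤ (p : ℤ) := by exact_mod_cast hp2
    nlinarith
  have hP : ∀ b : ℕ, 0 < b → Ge w (b * i + ((p : ℤ) - 1) * t) (∑ j, c j ^ b) := by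
    intro b _
    have h3 : ∑ j, c j ^ b = tr σ p (z ^ b) := by
      unfold tr
      rw [← Fin.sum_univ_eq_sum_range (fun j => (σ ^ j) (z ^ b)) p]
      refine sum_congr rfl fun j _ => ?_
      rw [hc, map_pow]
    rw [h3]
    exact tr_ge hσw hp (by omega) hD hpt (hz.pow b)
  have hes := es_ge c hT (ex_natCast_of_lt hp hp1) hP
  obtain ⟨q, hq⟩ : ∃ q, p = q + 1 := ⟨p - 1, by omega⟩
  have h4 : nm σ p (1 + z) - 1 - nm σ p z = ∑ k ∈ range q, es c (k + 1) := by
    rw [h1, h2]
    have key : ∀ g : ℕ → L, g 0 = 1 →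
        ∑ k ∈ range (p + 1), g k - 1 - g p = ∑ k ∈ range q, g (k + 1) := by
      intro g hg0
      rw [hq, sum_range_succ, sum_range_succ', hg0]
      ring
    exact key (fun k => es c k) (es_zero c)
  rw [h4]
  refine Ge.sum _ _ fun k hk => ?_
  have hk' := mem_range.mp hk
  refine (hes (k + 1) (by omega) (by omega)).mono ?_
  push_cast
  nlinarith

end NormEst

/-! ### Residue classes -/

section Residue

variable {L : Type*} [Field L] (w : Valuation L ℤᵐ⁰)

/-- Congruence modulo the maximal ideal on the integral elements. -/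
def resSetoid : Setoid {u : L // Ge w 0 u} where
  r u v := Ge w 1 (u.1 - v.1)
  iseqv :=
    { refl := fun u => by rw [sub_self]; exact Ge.zero 1
      symm := fun {u v} h => by have := h.neg; rwa [neg_sub] at this
      trans := fun {u v x} h h' => by have := h.add h'; rwa [sub_add_sub_cancel] at this }

/-- The residue classes. -/
abbrev Res := Quotient (resSetoid w)

open Classical in
/-- The class of an element (the class of `0` for non-integral elements). -/
noncomputable def cls (u : L) : Res w :=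
  if h : Ge w 0 u then Quotient.mk _ ⟨u, h⟩ else Quotient.mk _ ⟨0, Ge.zero 0⟩

variable {w}

theorem cls_eq_iff {u v : L} (hu : Ge w 0 u) (hv : Ge w 0 v) :
    cls w u = cls w v ↔ Ge w 1 (u - v) := by
  unfold cls
  rw [dif_pos hu, dif_pos hv, Quotient.eq]
  rfl

theorem exists_cls_eq (q : Res w) : ∃ u : L, Ge w 0 u ∧ cls w u = q := by
  obtain ⟨⟨u, hu⟩, rfl⟩ := Quotient.exists_rep q
  exact ⟨u, hu, by unfold cls; rw [dif_pos hu]⟩

theorem finite_res (hfin : ∃ R : Finset L, ∀ u : L, Ge w 0 u → ∃ r ∈ R, Ge w 1 (u - r)) :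
    Finite (Res w) := by
  obtain ⟨R, hR⟩ := hfin
  refine Finite.of_surjective (fun r : R => cls w (r : L)) ?_
  intro q
  obtain ⟨u, hu, rfl⟩ := exists_cls_eq q
  obtain ⟨r, hr, hur⟩ := hR u hu
  refine ⟨⟨r, hr⟩, ?_⟩
  have hr0 : Ge w 0 r := by
    have := hu.sub (hur.mono (by norm_num))
    rwa [sub_sub_cancel] at this
  rw [cls_eq_iff hr0 hu]
  have := hur.neg
  rwa [neg_sub] at this

end Residue

/-! ### The main theorem -/

section Main

variable {K₀ L : Type*} [Field K₀] [Field L] [Algebra K₀ L]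
  {w : Valuation L ℤᵐ⁰} {σ : L ≃ₐ[K₀] L} {p : ℕ}

/-- Fixed representatives of the residue classes (totally ramified case). -/
theorem exists_fixRep (hp : p.Prime)
    (hram : ∀ x : L, σ x = x → x ≠ 0 → ∃ m : ℤ, Ex w (p * m) x)
    {π : L} (hπ : Ex w 1 π) (hdeg : Module.finrank K₀ L = p) :
    ∃ fr : Res w → L, ∀ q, σ (fr q) = fr q ∧ Ge w 0 (fr q) ∧ cls w (fr q) = q := by
  have h : ∀ q : Res w, ∃ c : L, σ c = c ∧ Ge w 0 c ∧ cls w c = q := by
    intro q
    obtain ⟨u, hu, rfl⟩ := exists_cls_eq q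
    obtain ⟨c, hc⟩ := exists_fixed_congr hp hram hπ hdeg hu
    have hc0 : Ge w 0 (algebraMap K₀ L c) := by
      have := hu.sub (hc.mono (by norm_num))
      rwa [sub_sub_cancel] at this
    refine ⟨algebraMap K₀ L c, σ.commutes c, hc0, ?_⟩
    rw [cls_eq_iff hc0 hu]
    have := hc.neg
    rwa [neg_sub] at this
  choose fr hfr using h
  exact ⟨fr, hfr⟩

/-- **Tame totally ramified case**: some `σ`-fixed unit is not a norm modulo the maximal
ideal. -/
theorem exists_not_norm_tame (hp : p.Prime) (hσp : σ ^ p = 1) (hσw : ∀ x, w (σ x) = w x)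
    (hram : ∀ x : L, σ x = x → x ≠ 0 → ∃ m : ℤ, Ex w (p * m) x)
    {π : L} (hπ : Ex w 1 π) (hdeg : Module.finrank K₀ L = p) [Finite (Res w)]
    (hta : Ex w 0 (σ π / π - 1)) :
    ∃ x : L, σ x = x ∧ x ≠ 0 ∧ ∀ y : L, y ≠ 0 → ¬ Ge w 1 (x / nm σ p y - 1) := by
  by_contra hcon
  push Not at hcon
  obtain ⟨fr, hfr⟩ := exists_fixRep hp hram hπ hdeg
  set f : Res w → Res w := fun q => cls w (fr q ^ p) with hf
  have hp0 : 0 < p := hp.pos
  have hpZ : (1 : ℤ) ≤ (p : ℤ) := by exact_mod_cast hp.one_lt.le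
  have hsurj : Function.Surjective f := by
    intro q
    obtain ⟨hq1, hq2, hq3⟩ := hfr q
    by_cases hq0 : q = cls w 0
    · refine ⟨q, ?_⟩
      have h1 : Ge w 1 (fr q) := by
        have := (cls_eq_iff hq2 (Ge.zero 0)).mp (hq3.trans hq0)
        rwa [sub_zero] at this
      have h2 : Ge w 1 (fr q ^ p) := (h1.pow p).mono (by omega)
      have h3 : cls w (fr q ^ p) = cls w 0 := by
        rw [cls_eq_iff (h2.mono (by norm_num)) (Ge.zero 0), sub_zero]
        exact h2
      exact h3.trans hq0.symm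
    · have hc0 : fr q ≠ 0 := by
        intro h
        apply hq0
        rw [← hq3, h]
      obtain ⟨j, hj⟩ := exists_ex (w := w) hc0
      have hj0 : j = 0 := by
        have h1 := hj.le_of_ge hq2
        by_contra hne
        have h2 : Ge w 1 (fr q) := hj.ge.mono (by omega)
        apply hq0
        rw [← hq3, cls_eq_iff hq2 (Ge.zero 0), sub_zero]
        exact h2
      rw [hj0] at hj
      obtain ⟨y, hy0, hy⟩ := hcon (fr q) hq1 hc0
      have h1 : Ex w 0 (fr q / nm σ p y) := ex_zero_of_ge_sub_one hy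
      have hN : Ex w 0 (nm σ p y) := by
        have := hj.div h1
        rw [div_div_cancel₀ hc0] at this
        simpa using this
      obtain ⟨jy, hjy⟩ := exists_ex (w := w) hy0
      have hjy0 : jy = 0 := by
        have := hN.unique (hjy.nm hσw)
        have hp' : (p : ℤ) ≠ 0 := by exact_mod_cast hp.ne_zero
        rcases mul_eq_zero.mp this.symm with h | h
        · exact absurd h hp'
        · exact h
      rw [hjy0] at hjy
      obtain ⟨hq1', hq2', hq3'⟩ := hfr (cls w y)
      refine ⟨cls w y, ?_⟩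
      have h2 : Ge w 1 (y - fr (cls w y)) := by
        have := ((cls_eq_iff hq2' hjy.ge).mp hq3').neg
        rwa [neg_sub] at this
      have h3 : Ge w 1 (nm σ p y - nm σ p (fr (cls w y))) := nm_congr hσw hjy.ge hq2' h2
      rw [nm_of_fixed hq1'] at h3
      have h4 : Ge w 1 (fr q - nm σ p y) := by
        have h5 : fr q - nm σ p y = (fr q / nm σ p y - 1) * nm σ p y := by
          field_simp [hN.ne_zero]
        rw [h5]
        simpa using hy.mul hN.ge
      have h6 : Ge w 1 (fr (cls w y) ^ p - fr q) := by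
        have := (h3.add h4).neg
        convert this using 1
        ring
      show cls w (fr (cls w y) ^ p) = q
      rw [← hq3, cls_eq_iff (by simpa using hq2'.pow p) hq2]
      exact h6
  have hinj : Function.Injective f := Finite.injective_iff_surjective.mpr hsurj
  have hζ0 : Ex w 0 (σ π / π) := by
    have := (hπ.sigma hσw).div hπ
    simpa using this
  have hNζ : nm σ p (σ π / π) = 1 := by
    rw [nm_div, nm_sigma, sigma_nm hp0 hσp, div_self (nm_ne_zero hπ.ne_zero)]
  have key : ∀ u : L, Ex w 0 u → nm σ p u = 1 → f (cls w u) = cls w 1 := by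
    intro u hu hNu
    obtain ⟨hq1, hq2, hq3⟩ := hfr (cls w u)
    have h2 : Ge w 1 (fr (cls w u) - u) := (cls_eq_iff hq2 hu.ge).mp hq3
    have h3 := nm_congr (p := p) hσw hq2 hu.ge h2
    rw [nm_of_fixed hq1, hNu] at h3
    show cls w (fr (cls w u) ^ p) = cls w 1
    rw [cls_eq_iff (by simpa using hq2.pow p) Ge.one]
    exact h3
  have h1 := key _ hζ0 hNζ
  have h2 := key 1 ex_one nm_one
  have h3 := hinj (h1.trans h2.symm)
  rw [cls_eq_iff hζ0.ge Ge.one] at h3
  exact absurd (hta.le_of_ge h3) (by norm_num)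

/-- **Wild case**: some `σ`-fixed unit is not a norm modulo `1 + 𝔓^(p t + 1)`, where
`t ≥ 1` is the ramification break. -/
theorem exists_not_norm_wild (hp : p.Prime) (hσp : σ ^ p = 1) (hσw : ∀ x, w (σ x) = w x)
    (hram : ∀ x : L, σ x = x → x ≠ 0 → ∃ m : ℤ, Ex w (p * m) x)
    {π : L} (hπ : Ex w 1 π) (hdeg : Module.finrank K₀ L = p) [Finite (Res w)]
    {T : ℕ} (hT1 : 1 ≤ T) (hta : Ex w (T : ℤ) (σ π / π - 1)) :
    ∃ x : L, σ x = x ∧ x ≠ 0 ∧
      ∀ y : L, y ≠ 0 → ¬ Ge w ((p * T + 1 : ℕ) : ℤ) (x / nm σ p y - 1) := by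
  by_contra hcon
  push Not at hcon
  obtain ⟨fr, hfr⟩ := exists_fixRep hp hram hπ hdeg
  have hp0 : 0 < p := hp.pos
  have hp2 : (2 : ℤ) ≤ (p : ℤ) := by exact_mod_cast hp.two_le
  have hT1' : (1 : ℤ) ≤ (T : ℤ) := by exact_mod_cast hT1
  have hD : ∀ (i : ℤ) (z : L), Ge w i z → Ge w (i + T) (σ z - z) :=
    fun i z hz => sigma_sub_ge hp hσw hram hπ hdeg hta.ge hz
  have hpt : Ge w ((p - 1) * T) (p : L) := ge_prime hσw hp hσp hπ hT1' hta hD
  have hp1 : Ge w 1 (p : L) := hpt.mono (by nlinarith)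
  have hϖfix : σ (nm σ p π) = nm σ p π := sigma_nm hp0 hσp π
  have hϖT : Ex w (p * T) (nm σ p π ^ T) := by
    have := (hπ.nm (p := p) hσw).pow T
    convert this using 1
    ring
  have hπT : Ex w T (π ^ T) := by
    have := hπ.pow T
    simpa using this
  -- W1: `N (1 + z) ≡ 1` modulo `𝔓^(p t)` for `z ∈ 𝔓^t`
  have W1 : ∀ z : L, Ge w T z → Ge w (p * T) (nm σ p (1 + z) - 1) := by
    intro z hz
    have h1 := nm_one_add_sub_ge hσw hp hT1' hD hpt (by omega : (0 : ℤ) ≤ T) hz
    have h2 : Ge w (p * T) (nm σ p z) := hz.nm hσw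
    have h3 := (h1.mono (by nlinarith : (p : ℤ) * T ≤ T + (p - 1) * T)).add h2
    convert h3 using 1
    ring
  -- W2: congruent modulo `𝔓^(t+1)` implies norms congruent modulo `𝔓^(p t + 1)`
  have W2 : ∀ y y' : L, Ex w 0 y' → Ge w (T + 1) (y - y') →
      Ge w (p * T + 1) (nm σ p y - nm σ p y') := by
    intro y y' hy' hyy'
    have hδge : Ge w (T + 1) ((y - y') / y') := by
      have := hyy'.mul_ex_inv hy'
      simpa using this
    have hy : y = y' * (1 + (y - y') / y') := by
      field_simp [hy'.ne_zero]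
      ring
    have h1 := nm_one_add_sub_ge hσw hp hT1' hD hpt (by omega : (0 : ℤ) ≤ T + 1) hδge
    have h2 : Ge w (p * (T + 1)) (nm σ p ((y - y') / y')) := hδge.nm hσw
    have h3 : Ge w (p * T + 1) (nm σ p (1 + (y - y') / y') - 1) := by
      have := (h1.mono (by nlinarith : (p : ℤ) * T + 1 ≤ T + 1 + (p - 1) * T)).add
        (h2.mono (by nlinarith : (p : ℤ) * T + 1 ≤ p * (T + 1)))
      convert this using 1
      ring
    have h4 : nm σ p y - nm σ p y' = nm σ p y' * (nm σ p (1 + (y - y') / y') - 1) := by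
      conv_lhs => rw [hy, nm_mul]
      ring
    rw [h4]
    have := (hy'.nm (p := p) hσw).ge.mul h3
    convert this using 1
    ring
  -- W3: exact order of `N (1 + z) - 1` below the break
  have W3 : ∀ (z : L) (i : ℤ), Ex w i z → 1 ≤ i → i < T →
      Ex w (p * i) (nm σ p (1 + z) - 1) := by
    intro z i hz hi1 hiT
    have h1 := nm_one_add_sub_ge hσw hp hT1' hD hpt (by omega : (0 : ℤ) ≤ i) hz.ge
    have h2 : Ex w (p * i) (nm σ p z) := hz.nm hσw
    have h3 := h2.add_ge h1 (by nlinarith)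
    convert h3 using 1
    ring
  -- W4: a norm in `1 + 𝔓^(p t)` comes from `1 + 𝔓^t`
  have W4 : ∀ y : L, y ≠ 0 → Ge w (p * T) (nm σ p y - 1) → Ge w T (y - 1) := by
    intro y hy0 hNy
    have hN0 : Ex w 0 (nm σ p y) := ex_zero_of_ge_sub_one (hNy.mono (by nlinarith))
    obtain ⟨jy, hjy⟩ := exists_ex (w := w) hy0
    have hjy0 : jy = 0 := by
      have := hN0.unique (hjy.nm hσw)
      have hp' : (p : ℤ) ≠ 0 := by omega
      rcases mul_eq_zero.mp this.symm with h | h
      · exact absurd h hp'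
      · exact h
    rw [hjy0] at hjy
    obtain ⟨c, hc⟩ := exists_fixed_congr hp hram hπ hdeg hjy.ge
    have hc'fix : σ (algebraMap K₀ L c) = algebraMap K₀ L c := σ.commutes c
    have hc'0 : Ge w 0 (algebraMap K₀ L c) := by
      have := hjy.ge.sub (hc.mono (by norm_num))
      rwa [sub_sub_cancel] at this
    have h1 : Ge w 1 (nm σ p y - nm σ p (algebraMap K₀ L c)) := nm_congr hσw hjy.ge hc'0 hc
    rw [nm_of_fixed hc'fix] at h1
    have h2 : Ge w 1 (algebraMap K₀ L c ^ p - 1) := by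
      have := (hNy.mono (by nlinarith : (1 : ℤ) ≤ p * T)).sub h1
      convert this using 1
      ring
    have hd0 : Ge w 0 (algebraMap K₀ L c - 1) := hc'0.sub Ge.one
    have h3 := one_add_pow_sub_ge hp hp1 hd0
    rw [add_sub_cancel] at h3
    have h4 : Ge w 1 ((algebraMap K₀ L c - 1) ^ p) := by
      have := h2.sub h3
      convert this using 1
      ring
    have h5 : Ge w 1 (algebraMap K₀ L c - 1) := by
      by_cases hd : algebraMap K₀ L c - 1 = 0
      · rw [hd]
        exact Ge.zero 1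
      · obtain ⟨j, hj⟩ := exists_ex (w := w) hd
        have h6 := hj.le_of_ge hd0
        have h7 := (hj.pow p).le_of_ge h4
        refine hj.ge.mono ?_
        by_contra hlt
        have hj0 : j = 0 := by omega
        rw [hj0] at h7
        omega
    have h8 : Ge w 1 (y - 1) := by
      have := hc.add h5
      convert this using 1
      ring
    by_cases hz : y - 1 = 0
    · rw [hz]
      exact Ge.zero _
    · obtain ⟨i, hi⟩ := exists_ex (w := w) hz
      have hi1 := hi.le_of_ge h8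
      by_contra hnot
      have hiT : i < T := by
        by_contra hge
        exact hnot (hi.ge.mono (by omega))
      have h9 := W3 (y - 1) i hi hi1 hiT
      rw [add_sub_cancel] at h9
      have := h9.le_of_ge hNy
      nlinarith
  -- the map on residue classes induced by the norm on `U^t / U^(t+1)`
  set f : Res w → Res w :=
    fun q => cls w ((nm σ p (1 + fr q * π ^ T) - 1) / nm σ p π ^ T) with hf
  have hint : ∀ c : L, Ge w 0 c → Ge w 0 ((nm σ p (1 + c * π ^ T) - 1) / nm σ p π ^ T) := by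
    intro c hc
    have h1 : Ge w T (c * π ^ T) := by
      have := hc.mul hπT.ge
      simpa using this
    have := (W1 _ h1).mul_ex_inv hϖT
    simpa using this
  have hsurj : Function.Surjective f := by
    intro q
    obtain ⟨hq1, hq2, hq3⟩ := hfr q
    have hxfix : σ (1 + fr q * nm σ p π ^ T) = 1 + fr q * nm σ p π ^ T := by
      rw [map_add, map_one, map_mul, map_pow, hq1, hϖfix]
    have hcϖ : Ge w (p * T) (fr q * nm σ p π ^ T) := by
      have := hq2.mul hϖT.ge
      simpa using this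
    have hx0 : Ex w 0 (1 + fr q * nm σ p π ^ T) := by
      apply ex_zero_of_ge_sub_one
      rw [add_sub_cancel_left]
      exact hcϖ.mono (by nlinarith)
    obtain ⟨y, hy0, hy⟩ := hcon _ hxfix hx0.ne_zero
    have hpT1 : ((p * T + 1 : ℕ) : ℤ) = p * T + 1 := by
      push_cast
      ring
    rw [hpT1] at hy
    have h1 : Ex w 0 ((1 + fr q * nm σ p π ^ T) / nm σ p y) :=
      ex_zero_of_ge_sub_one (hy.mono (by nlinarith))
    have hN : Ex w 0 (nm σ p y) := by
      have := hx0.div h1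
      rw [div_div_cancel₀ hx0.ne_zero] at this
      simpa using this
    have h2 : Ge w (p * T + 1) (1 + fr q * nm σ p π ^ T - nm σ p y) := by
      have h5 : 1 + fr q * nm σ p π ^ T - nm σ p y =
          ((1 + fr q * nm σ p π ^ T) / nm σ p y - 1) * nm σ p y := by
        field_simp [hN.ne_zero]
      rw [h5]
      simpa using hy.mul hN.ge
    have h3 : Ge w (p * T) (nm σ p y - 1) := by
      have := hcϖ.sub (h2.mono (by omega))
      convert this using 1
      ring
    have h4 := W4 y hy0 h3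
    have hu0 : Ge w 0 ((y - 1) / π ^ T) := by
      have := h4.mul_ex_inv hπT
      simpa using this
    obtain ⟨hq1', hq2', hq3'⟩ := hfr (cls w ((y - 1) / π ^ T))
    refine ⟨cls w ((y - 1) / π ^ T), ?_⟩
    have h5 : Ge w 1 ((y - 1) / π ^ T - fr (cls w ((y - 1) / π ^ T))) := by
      have := ((cls_eq_iff hq2' hu0).mp hq3').neg
      rwa [neg_sub] at this
    have h6 : Ge w (T + 1) (y - (1 + fr (cls w ((y - 1) / π ^ T)) * π ^ T)) := by
      have h7 : y - (1 + fr (cls w ((y - 1) / π ^ T)) * π ^ T) =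
          ((y - 1) / π ^ T - fr (cls w ((y - 1) / π ^ T))) * π ^ T := by
        field_simp [hπ.ne_zero]
        ring
      rw [h7]
      have := h5.mul hπT.ge
      convert this using 1
      ring
    have hy'0 : Ex w 0 (1 + fr (cls w ((y - 1) / π ^ T)) * π ^ T) := by
      apply ex_zero_of_ge_sub_one
      rw [add_sub_cancel_left]
      have := hq2'.mul hπT.ge
      exact this.mono (by omega)
    have h8 := W2 y _ hy'0 h6
    have h9 : Ge w (p * T + 1) (nm σ p (1 + fr (cls w ((y - 1) / π ^ T)) * π ^ T) -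
        (1 + fr q * nm σ p π ^ T)) := by
      have := (h8.add h2).neg
      convert this using 1
      ring
    show cls w ((nm σ p (1 + fr (cls w ((y - 1) / π ^ T)) * π ^ T) - 1) / nm σ p π ^ T) = q
    rw [← hq3, cls_eq_iff (hint _ hq2') hq2]
    have h10 : (nm σ p (1 + fr (cls w ((y - 1) / π ^ T)) * π ^ T) - 1) / nm σ p π ^ T - fr q =
        (nm σ p (1 + fr (cls w ((y - 1) / π ^ T)) * π ^ T) - (1 + fr q * nm σ p π ^ T)) /
          nm σ p π ^ T := by
      field_simp [hϖT.ne_zero]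
      ring
    rw [h10]
    have := h9.mul_ex_inv hϖT
    convert this using 1
    ring
  have hinj : Function.Injective f := Finite.injective_iff_surjective.mpr hsurj
  -- two distinct classes with the same image
  have key : ∀ u v : L, Ge w 0 u → Ex w 0 v → nm σ p v = 1 → 1 + u * π ^ T = v →
      f (cls w u) = cls w 0 := by
    intro u v hu hv hNv huv
    obtain ⟨hq1, hq2, hq3⟩ := hfr (cls w u)
    have h2 : Ge w 1 (fr (cls w u) - u) := (cls_eq_iff hq2 hu).mp hq3
    have h3 : Ge w (T + 1) (1 + fr (cls w u) * π ^ T - v) := by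
      have h4 : 1 + fr (cls w u) * π ^ T - v = (fr (cls w u) - u) * π ^ T := by
        rw [← huv]
        ring
      rw [h4]
      have := h2.mul hπT.ge
      convert this using 1
      ring
    have h5 := W2 _ v hv h3
    rw [hNv] at h5
    show cls w ((nm σ p (1 + fr (cls w u) * π ^ T) - 1) / nm σ p π ^ T) = cls w 0
    rw [cls_eq_iff (hint _ hq2) (Ge.zero 0), sub_zero]
    have := h5.mul_ex_inv hϖT
    convert this using 1
    ring
  have hζ0 : Ex w 0 (σ π / π) := by
    have := (hπ.sigma hσw).div hπ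
    simpa using this
  have hNζ : nm σ p (σ π / π) = 1 := by
    rw [nm_div, nm_sigma, sigma_nm hp0 hσp, div_self (nm_ne_zero hπ.ne_zero)]
  have ha0 : Ex w 0 ((σ π / π - 1) / π ^ T) := by
    have := hta.div hπT
    simpa using this
  have h1 := key 0 1 (Ge.zero 0) ex_one nm_one (by ring)
  have h2 := key ((σ π / π - 1) / π ^ T) (σ π / π) ha0.ge hζ0 hNζ (by
    field_simp [hπ.ne_zero]
    ring)
  have h3 := hinj (h1.trans h2.symm)
  rw [cls_eq_iff (Ge.zero 0) ha0.ge, zero_sub] at h3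
  have h4 := ha0.neg.le_of_ge h3
  omega

/-- **Local first inequality, congruence form.**  Let `L / K₀` be an extension of prime degree
`p`, `σ` a `K₀`-automorphism of `L` with `σ^p = 1` preserving the discrete valuation `w` (which
has a uniformizer and a finite residue field).  Then some nonzero `σ`-fixed element `x` is not
congruent to a norm `N y = ∏_{j<p} σ^j y` modulo `1 + 𝔓^n`, for a suitable `n`. -/
theorem exists_not_norm_mod (hp : p.Prime) (hσp : σ ^ p = 1) (hσw : ∀ x, w (σ x) = w x)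
    (hdeg : Module.finrank K₀ L = p) (huni : ∃ π : L, Ex w 1 π)
    (hfin : ∃ R : Finset L, ∀ u : L, Ge w 0 u → ∃ r ∈ R, Ge w 1 (u - r)) :
    ∃ n : ℕ, ∃ x : L, σ x = x ∧ x ≠ 0 ∧ ∀ y : L, y ≠ 0 → ¬ Ge w (n : ℤ) (x / nm σ p y - 1) := by
  have hp2 : (2 : ℤ) ≤ (p : ℤ) := by exact_mod_cast hp.two_le
  by_cases hram : ∀ x : L, σ x = x → x ≠ 0 → ∃ m : ℤ, Ex w (p * m) x
  · obtain ⟨π, hπ⟩ := huni
    have := finite_res hfin
    have hσπ : σ π ≠ π := by
      intro h
      obtain ⟨m, hm⟩ := hram π h hπ.ne_zero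
      have h1 := hπ.unique hm
      rcases le_or_gt m 0 with hm0 | hm0
      · nlinarith
      · nlinarith
    have ha : σ π / π - 1 ≠ 0 := by
      intro h
      apply hσπ
      have h1 : σ π / π = 1 := sub_eq_zero.mp h
      rwa [div_eq_one_iff_eq hπ.ne_zero] at h1
    have ha0 : Ge w 0 (σ π / π - 1) := by
      have h1 : Ex w 0 (σ π / π) := by
        have := (hπ.sigma hσw).div hπ
        simpa using this
      exact h1.ge.sub Ge.one
    obtain ⟨t, ht⟩ := exists_ex (w := w) ha
    have ht0 := ht.le_of_ge ha0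
    rcases eq_or_lt_of_le ht0 with ht' | ht'
    · rw [← ht'] at ht
      obtain ⟨x, hx1, hx2, hx3⟩ := exists_not_norm_tame hp hσp hσw hram hπ hdeg ht
      exact ⟨1, x, hx1, hx2, fun y hy => by simpa using hx3 y hy⟩
    · obtain ⟨T, rfl⟩ := Int.eq_ofNat_of_zero_le ht0
      have hT1 : 1 ≤ T := by exact_mod_cast ht'
      obtain ⟨x, hx1, hx2, hx3⟩ := exists_not_norm_wild hp hσp hσw hram hπ hdeg hT1 ht
      exact ⟨p * T + 1, x, hx1, hx2, hx3⟩
  · push Not at hram
    obtain ⟨x, hx1, hx2, hx3⟩ := hram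
    refine ⟨1, x, hx1, hx2, fun y hy hcon => ?_⟩
    have h1 : Ex w 0 (x / nm σ p y) := ex_zero_of_ge_sub_one (by simpa using hcon)
    obtain ⟨j, hj⟩ := exists_ex (w := w) hy
    have h2 := h1.mul (hj.nm (p := p) hσw)
    rw [div_mul_cancel₀ _ (nm_ne_zero hy), zero_add] at h2
    exact hx3 j h2

end Main

end Fermat.Agent.CFT.LocNorm
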