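import Mathlib
import Fermat.Agent.CFT.LocNorm.Core
import Fermat.Agent.CFT.HNT.NormCongr

/-!
# The local first inequality for number fields, in congruence form (G3-LOC, part B)

`F / K` a cyclic extension of number fields of prime degree `p`, `v` a prime of `K` which does
not split in `F` (exactly one prime of `F` above `v`; it may be inert or ramified, tamely or
wildly).  Then some `x ∈ Kˣ` is not congruent to a norm from `F` modulo a suitable power of `v`:

`∃ n, ∃ x ≠ 0, ∀ y ≠ 0, ¬ v (x / N_{F/K} y - 1) ≤ exp (-n)`.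

Equivalently the subgroup `normCongr F v` of `Kˣ` ("local norms at `v`") is a proper subgroup.
This is the number field wrapper around the abstract theorem `LocNorm.exists_not_norm_mod`.
-/

set_option autoImplicit false

open NumberField Module Finset

namespace Fermat.Agent.CFT.LocNorm

open IsDedekindDomain WithZero

open scoped Pointwise

/-- In `ℤᵐ⁰`, being `< 1` is the same as being `≤ exp (-1)`. -/
theorem lt_one_iff_le_exp_neg_one (x : ℤᵐ⁰) : x < 1 ↔ x ≤ exp (-1 : ℤ) := by
  rcases eq_or_ne x 0 with rfl | hx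
  · simp
  · rw [← exp_zero, ← log_lt_iff_lt_exp hx, ← log_le_iff_le_exp hx]
    omega

section General

variable {R : Type*} [CommRing R] [IsDedekindDomain R] {L : Type*} [Field L] [Algebra R L]
  [IsFractionRing R L]

/-- The residue classes of the valuation ring of a prime with finite residue field are
represented by a finite set. -/
theorem exists_finset_repr (w : HeightOneSpectrum R) [Finite (R ⧸ w.asIdeal)] :
    ∃ T : Finset L, ∀ u : L, Ge (w.valuation L) 0 u → ∃ r ∈ T, Ge (w.valuation L) 1 (u - r) := by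
  classical
  have : Fintype (R ⧸ w.asIdeal) := Fintype.ofFinite _
  refine ⟨Finset.univ.image fun q : R ⧸ w.asIdeal => algebraMap R L (Quotient.out q), ?_⟩
  intro u hu
  have hu1 : w.valuation L u ≤ 1 := by
    have h : w.valuation L u ≤ exp (-(0 : ℤ)) := hu
    rwa [neg_zero, exp_zero] at h
  obtain ⟨a, ha⟩ := w.exists_valuation_sub_lt_of_integer hu1 1
  rw [Units.val_one] at ha
  refine ⟨algebraMap R L (Quotient.out (Ideal.Quotient.mk w.asIdeal a)),
    Finset.mem_image.mpr ⟨_, Finset.mem_univ _, rfl⟩, ?_⟩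
  have h1 : a - Quotient.out (Ideal.Quotient.mk w.asIdeal a) ∈ w.asIdeal := by
    rw [← Ideal.Quotient.eq]
    exact (Quotient.out_eq (Ideal.Quotient.mk w.asIdeal a)).symm
  have h2 : w.valuation L (algebraMap R L (a - Quotient.out (Ideal.Quotient.mk w.asIdeal a))) < 1 :=
    (w.valuation_lt_one_iff_mem _).mpr h1
  have e : u - algebraMap R L (Quotient.out (Ideal.Quotient.mk w.asIdeal a)) =
      -(algebraMap R L a - u) +
        algebraMap R L (a - Quotient.out (Ideal.Quotient.mk w.asIdeal a)) := by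
    rw [map_sub]
    ring
  show w.valuation L _ ≤ exp (-(1 : ℤ))
  rw [e, ← lt_one_iff_le_exp_neg_one]
  refine lt_of_le_of_lt (Valuation.map_add _ _ _) (max_lt ?_ h2)
  rw [Valuation.map_neg]
  exact ha

end General

section Cyclic

variable {K F : Type*} [Field K] [Field F] [Algebra K F] [IsGalois K F] [FiniteDimensional K F]

/-- For a cyclic extension of prime degree with Galois group generated by `σ`, the norm is
`y ↦ ∏_{j < p} σ^j y`. -/
theorem algebraMap_norm_eq_nm {p : ℕ} (hp : p.Prime) (hdeg : finrank K F = p)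
    (σ : F ≃ₐ[K] F) (hσ : σ ≠ 1) (y : F) :
    algebraMap K F (Algebra.norm K y) = nm σ p y := by
  classical
  have hcard : Nat.card (F ≃ₐ[K] F) = p := by rw [IsGalois.card_aut_eq_finrank, hdeg]
  have : Fact p.Prime := ⟨hp⟩
  have htop : Subgroup.zpowers σ = ⊤ := zpowers_eq_top_of_prime_card hcard hσ
  have hord : orderOf σ = p := by
    rw [← Nat.card_zpowers, htop, Subgroup.card_top, hcard]
  rw [Algebra.norm_eq_prod_automorphisms, nm]
  symm
  refine prod_bij (fun j _ => σ ^ j) (fun _ _ => mem_univ _) ?_ ?_ ?_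
  · intro i hi j hj hij
    rw [← hord] at hi hj
    exact pow_injOn_Iio_orderOf (mem_range.mp hi) (mem_range.mp hj) hij
  · intro g _
    have hg : g ∈ Subgroup.zpowers σ := by rw [htop]; exact Subgroup.mem_top g
    rw [mem_zpowers_iff_mem_range_orderOf, hord] at hg
    obtain ⟨j, hj, rfl⟩ := Finset.mem_image.mp hg
    exact ⟨j, hj, rfl⟩
  · intro j _
    rfl

/-- For a cyclic extension of prime degree with Galois group generated by `σ`, the elements
fixed by `σ` are those of the base field. -/
theorem exists_algebraMap_eq_of_fixed {p : ℕ} (hp : p.Prime) (hdeg : finrank K F = p)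
    (σ : F ≃ₐ[K] F) (hσ : σ ≠ 1) {x : F} (hx : σ x = x) : ∃ x₀ : K, algebraMap K F x₀ = x := by
  have hcard : Nat.card (F ≃ₐ[K] F) = p := by rw [IsGalois.card_aut_eq_finrank, hdeg]
  have : Fact p.Prime := ⟨hp⟩
  have htop : Subgroup.zpowers σ = ⊤ := zpowers_eq_top_of_prime_card hcard hσ
  have hall : ∀ g : F ≃ₐ[K] F, g x = x := by
    intro g
    have hle : Subgroup.zpowers σ ≤ MulAction.stabilizer (F ≃ₐ[K] F) x := by
      rw [Subgroup.zpowers_le, MulAction.mem_stabilizer_iff]
      exact hx
    have hg : g ∈ MulAction.stabilizer (F ≃ₐ[K] F) x := hle (by rw [htop]; exact Subgroup.mem_top g)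
    exact MulAction.mem_stabilizer_iff.mp hg
  have hbot : x ∈ (⊥ : IntermediateField K F) := (IsGalois.mem_bot_iff_fixed x).mpr hall
  exact IntermediateField.mem_bot.mp hbot

end Cyclic

section NumberFields

variable {K F : Type*} [Field K] [NumberField K] [Field F] [NumberField F] [Algebra K F]
  [IsGalois K F]

/-- **Local first inequality for number fields, congruence form.**  Let `F / K` be a cyclic
extension of number fields of prime degree `p` and let `w` be a prime of `F` fixed by a
generator `σ` of the Galois group, `v` the prime of `K` below `w`.  Then there are `n` and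
`x ∈ Kˣ` such that `x` is not congruent modulo `v ^ n` (multiplicatively) to any norm from
`F`. -/
theorem exists_not_norm_mod_of_smul_eq {p : ℕ} (hp : p.Prime) (hdeg : finrank K F = p)
    (σ : F ≃ₐ[K] F) (hσ : σ ≠ 1) (w : HeightOneSpectrum (𝓞 F))
    (hw : σ • w.asIdeal = w.asIdeal) :
    ∃ n : ℕ, ∃ x : K, x ≠ 0 ∧ ∀ y : F, y ≠ 0 →
      ¬ (w.under (𝓞 K)).valuation K (x / Algebra.norm K y - 1) ≤ exp (-(n : ℤ)) := by
  have hcard : Nat.card (F ≃ₐ[K] F) = p := by rw [IsGalois.card_aut_eq_finrank, hdeg]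
  have hσp : σ ^ p = 1 := by
    rw [← hcard]
    exact pow_card_eq_one'
  have hσw : ∀ x : F, w.valuation F (σ x) = w.valuation F x := by
    intro x
    have h := HNT.hs_valuation_smul σ w x
    have e : HNT.hsPrime σ w = w := HeightOneSpectrum.ext hw
    rwa [e] at h
  have huni : ∃ π : F, Ex (w.valuation F) 1 π := w.valuation_exists_uniformizer F
  have hfinq : Finite (𝓞 F ⧸ w.asIdeal) := Ideal.finiteQuotientOfFreeOfNeBot _ w.ne_bot
  have hfin := exists_finset_repr (L := F) w
  obtain ⟨n, x, hx, hx0, hxn⟩ := exists_not_norm_mod hp hσp hσw hdeg huni hfin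
  obtain ⟨x₀, rfl⟩ := exists_algebraMap_eq_of_fixed hp hdeg σ hσ hx
  have hx₀ : x₀ ≠ 0 := by
    rintro rfl
    exact hx0 (map_zero _)
  refine ⟨n, x₀, hx₀, fun y hy hle => hxn y hy ?_⟩
  have : w.asIdeal.LiesOver (w.under (𝓞 K)).asIdeal := ⟨rfl⟩
  have he : (w.under (𝓞 K)).asIdeal.ramificationIdx' w.asIdeal ≠ 0 :=
    Ideal.IsDedekindDomain.ramificationIdx'_ne_zero_of_liesOver w.asIdeal (w.under (𝓞 K)).ne_bot
  have e : algebraMap K F x₀ / nm σ p y - 1 = algebraMap K F (x₀ / Algebra.norm K y - 1) := by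
    rw [← algebraMap_norm_eq_nm hp hdeg σ hσ y, map_sub, map_div₀, map_one]
  show w.valuation F _ ≤ exp (-(n : ℤ))
  rw [e, ← HeightOneSpectrum.valuation_liesOver F (w.under (𝓞 K)) w]
  have h1 : exp (-(n : ℤ)) ≤ (1 : ℤᵐ⁰) := by
    rw [← exp_zero, exp_le_exp]
    omega
  calc (w.under (𝓞 K)).valuation K (x₀ / Algebra.norm K y - 1) ^
        (w.under (𝓞 K)).asIdeal.ramificationIdx' w.asIdeal
      ≤ exp (-(n : ℤ)) ^ (w.under (𝓞 K)).asIdeal.ramificationIdx' w.asIdeal :=
        pow_le_pow_left₀ zero_le hle _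
    _ ≤ exp (-(n : ℤ)) ^ 1 := pow_le_pow_of_le_one zero_le h1 (Nat.one_le_iff_ne_zero.mpr he)
    _ = exp (-(n : ℤ)) := pow_one _

/-- **Local first inequality for number fields, congruence form** (G3-LOC (B)).  Let `F / K` be
a Galois extension of number fields of prime degree `p` and `v` a prime of `K` with exactly one
prime of `F` above it (inert or ramified, tame or wild).  Then there are `n` and `x ∈ Kˣ` such
that `x` is not congruent modulo `v ^ n` (multiplicatively) to any norm from `F`:
`x ∉ N(Fˣ) · K_{v^n,1}`. -/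
theorem exists_not_norm_mod_of_isNonSplit {p : ℕ} (hp : p.Prime) (hdeg : finrank K F = p)
    (v : HeightOneSpectrum (𝓞 K)) (hv : HNT.IsNonSplit F v) :
    ∃ n : ℕ, ∃ x : K, x ≠ 0 ∧ ∀ y : F, y ≠ 0 →
      ¬ v.valuation K (x / Algebra.norm K y - 1) ≤ exp (-(n : ℤ)) := by
  have hcard : Nat.card (F ≃ₐ[K] F) = p := by rw [IsGalois.card_aut_eq_finrank, hdeg]
  have : Finite (F ≃ₐ[K] F) := Nat.finite_of_card_ne_zero (by rw [hcard]; exact hp.ne_zero)
  obtain ⟨σ, hσ⟩ : ∃ σ : F ≃ₐ[K] F, σ ≠ 1 := by
    have h1 : 1 < Nat.card (F ≃ₐ[K] F) := by rw [hcard]; exact hp.one_lt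
    have : Nontrivial (F ≃ₐ[K] F) := Finite.one_lt_card_iff_nontrivial.mp h1
    exact exists_ne 1
  obtain ⟨w, rfl⟩ := HNT.hs_exists_under (M := F) v
  exact exists_not_norm_mod_of_smul_eq hp hdeg σ hσ w
    ((HNT.isNonSplit_iff_forall_smul hp hdeg σ hσ _).mp hv w rfl)

/-- The group of local norms at a non-split prime of a cyclic extension of prime degree is a
proper subgroup of `Kˣ`. -/
theorem normCongr_ne_top_of_isNonSplit {p : ℕ} (hp : p.Prime) (hdeg : finrank K F = p)
    (v : HeightOneSpectrum (𝓞 K)) (hv : HNT.IsNonSplit F v) : HNT.normCongr F v ≠ ⊤ :=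
  HNT.normCongr_ne_top_of v (exists_not_norm_mod_of_isNonSplit hp hdeg v hv)

end NumberFields

end Fermat.Agent.CFT.LocNorm
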